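import Fermat.Agent.S52.T5.Theta
import Fermat.Agent.S52.SPEC.PtMap
import Fermat.Agent.S52.NOS.Short
import Fermat.Agent.S13.Ladder.Vieta

/-!
# S52 [T5-BRIDGE] (helper3; prefix `s52tf_`), part 2: `s52_T5 a b ↔ 25 points over ℚ̄(s)`

`s52tf_T5_iff`: for `a b : RatFunc ℚ` with `4a³ + 27b² ≠ 0`, the architect's condition
`s52_T5 a b` (all 5-torsion points of `y² = x³ + a x + b` over `Ω = AlgebraicClosure (RatFunc ℚ)`
have coordinates in `ℚ̄(s) ⊆ Ω`) is equivalent to the producers'/consumers' condition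
`25 ≤ #E(RatFunc ℚ̄)[5]` for the curve with coefficients `ι a`, `ι b`.
-/

set_option autoImplicit false

namespace Fermat.Agent.S52

open WeierstrassCurve WeierstrassCurve.Affine Polynomial
open scoped WeierstrassCurve.Affine

noncomputable section

instance s52tf_decEqF : DecidableEq (RatFunc s52_Qb) := Classical.decEq _

/-- the family curve over `ℚ̄(s) = RatFunc ℚ̄` -/
def s52tf_EF (a b : RatFunc ℚ) : Affine (RatFunc s52_Qb) :=
  s52n_short (s52tf_iota a) (s52tf_iota b)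

theorem s52tf_EF_map (a b : RatFunc ℚ) :
    (s52tf_EF a b).map s52tf_theta = (s52_shortK a b)⁄s52_Om := by
  show WeierstrassCurve.map (s52n_short (s52tf_iota a) (s52tf_iota b)) s52tf_theta =
    WeierstrassCurve.map (s52n_short a b) (algebraMap (RatFunc ℚ) s52_Om)
  rw [s52n_short_map, s52n_short_map, s52tf_theta_iota, s52tf_theta_iota]

/-- the map `E(ℚ̄(s)) → E(Ω)` -/
def s52tf_Phi (a b : RatFunc ℚ) :
    (s52tf_EF a b).Point →+ ((s52_shortK a b)⁄s52_Om).Point :=
  s52p_ptMapTo s52tf_theta (s52tf_EF_map a b)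

theorem s52tf_Phi_injective (a b : RatFunc ℚ) : Function.Injective (s52tf_Phi a b) :=
  s52p_ptMapTo_injective _ _

/-- `Φ` on `n`-torsion -/
def s52tf_Phi5 (a b : RatFunc ℚ) :
    {Q : (s52tf_EF a b).Point // (5 : ℕ) • Q = 0} →
      {P : ((s52_shortK a b)⁄s52_Om).Point // (5 : ℕ) • P = 0} :=
  fun Q => ⟨s52tf_Phi a b Q.1, by rw [← map_nsmul, Q.2, map_zero]⟩

theorem s52tf_Phi5_injective (a b : RatFunc ℚ) : Function.Injective (s52tf_Phi5 a b) := by
  intro Q Q' h
  apply Subtype.ext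
  apply s52tf_Phi_injective a b
  exact congrArg Subtype.val h

theorem s52tf_card_Om (a b : RatFunc ℚ) (hΔ : 4 * a ^ 3 + 27 * b ^ 2 ≠ 0) :
    Nat.card {P : ((s52_shortK a b)⁄s52_Om).Point // (5 : ℕ) • P = 0} = 25 := by
  have hΔ' : ((s52_shortK a b)⁄s52_Om).Δ ≠ 0 := by
    have h1 : (s52_shortK a b)⁄s52_Om =
        s52n_short (algebraMap (RatFunc ℚ) s52_Om a) (algebraMap (RatFunc ℚ) s52_Om b) := by
      show WeierstrassCurve.map (s52n_short a b) (algebraMap (RatFunc ℚ) s52_Om) = _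
      rw [s52n_short_map]
    rw [h1, s52n_short_Δ]
    have h2 : (4 * (algebraMap (RatFunc ℚ) s52_Om a) ^ 3 + 27 * (algebraMap (RatFunc ℚ) s52_Om b) ^ 2) =
        algebraMap (RatFunc ℚ) s52_Om (4 * a ^ 3 + 27 * b ^ 2) := by
      simp only [map_add, map_mul, map_pow, map_ofNat]
    rw [h2]
    refine mul_ne_zero (by norm_num) ?_
    exact (map_ne_zero_iff _ (algebraMap (RatFunc ℚ) s52_Om).injective).mpr hΔ
  have := Fermat.Agent.S13.ld_card_torsion ((s52_shortK a b)⁄s52_Om) hΔ' (n := 5) (by decide)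
  simpa using this

/-- surjectivity of `Φ` on 5-torsion is exactly `s52_T5` -/
theorem s52tf_T5_iff_surj (a b : RatFunc ℚ) :
    s52_T5 a b ↔ Function.Surjective (s52tf_Phi5 a b) := by
  constructor
  · intro hT P
    rcases P with ⟨_ | ⟨x, y, h⟩, hP⟩
    · exact ⟨⟨0, nsmul_zero (M := (s52tf_EF a b).Point) 5⟩,
        Subtype.ext (map_zero (s52tf_Phi a b))⟩
    · obtain ⟨hx, hy⟩ := hT (Point.some x y h) hP x y h rfl
      obtain ⟨x', rfl⟩ := (s52tf_mem_KbarS_iff x).mp hx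
      obtain ⟨y', rfl⟩ := (s52tf_mem_KbarS_iff y).mp hy
      have h' : (s52tf_EF a b).Nonsingular x' y' := by
        have := h
        rw [← s52tf_EF_map] at this
        exact ((s52tf_EF a b).map_nonsingular s52tf_theta.injective x' y').mp this
      have hQ : s52tf_Phi a b (Point.some x' y' h') = Point.some _ _ h :=
        s52p_ptMapTo_some _ _ _
      refine ⟨⟨Point.some x' y' h', ?_⟩, Subtype.ext hQ⟩
      apply s52tf_Phi_injective a b
      rw [map_nsmul, hQ, hP, map_zero]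
  · intro hsurj P hP x y h hPx
    obtain ⟨⟨Q, hQ5⟩, hQ⟩ := hsurj ⟨P, hP⟩
    have hQ' : s52tf_Phi a b Q = P := congrArg Subtype.val hQ
    rcases Q with _ | ⟨x', y', h'⟩
    · rw [hPx] at hQ'
      change s52tf_Phi a b 0 = _ at hQ'
      rw [map_zero] at hQ'
      exact absurd hQ'.symm (Point.some_ne_zero _)
    · rw [hPx] at hQ'
      have := (s52p_ptMapTo_some s52tf_theta (s52tf_EF_map a b) h').symm.trans hQ'
      simp only [Point.some.injEq] at this
      obtain ⟨rfl, rfl⟩ := this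
      exact ⟨s52tf_theta_mem x', s52tf_theta_mem y'⟩

/-- **the bridge**: `s52_T5 a b ↔ 25 ≤ #E(ℚ̄(s))[5]` -/
theorem s52tf_T5_iff (a b : RatFunc ℚ) (hΔ : 4 * a ^ 3 + 27 * b ^ 2 ≠ 0) :
    s52_T5 a b ↔ 25 ≤ Nat.card {Q : (s52tf_EF a b).Point // (5 : ℕ) • Q = 0} := by
  have hcard := s52tf_card_Om a b hΔ
  haveI : Finite {P : ((s52_shortK a b)⁄s52_Om).Point // (5 : ℕ) • P = 0} :=
    Nat.finite_of_card_ne_zero (by rw [hcard]; norm_num)
  haveI : Finite {Q : (s52tf_EF a b).Point // (5 : ℕ) • Q = 0} :=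
    Finite.of_injective _ (s52tf_Phi5_injective a b)
  rw [s52tf_T5_iff_surj]
  constructor
  · intro hsurj
    rw [← hcard]
    exact Nat.card_le_card_of_surjective _ hsurj
  · intro h25
    exact ((s52tf_Phi5_injective a b).bijective_of_nat_card_le (by rw [hcard]; exact h25)).2

end

end Fermat.Agent.S52
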