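import Fermat.Agent.S52.Geom.Seams

/-!
# S52 [T5-BRIDGE] (helper3; prefix `s52tf_`), part 1: the embedding `θ : ℚ̄(s) → Ω`

`Ω = s52_Om = AlgebraicClosure (RatFunc ℚ)`.  We construct
* `s52tf_iota : RatFunc ℚ →+* RatFunc s52_Qb` (coefficientwise `ℚ → ℚ̄`),
* `s52tf_theta : RatFunc s52_Qb →+* s52_Om` with `θ ∘ ι = algebraMap (RatFunc ℚ) Ω`
  and `range θ = s52_KbarS`.
-/

set_option autoImplicit false

namespace Fermat.Agent.S52

open Polynomial

noncomputable section

/-- `ℚ[X] → ℚ̄[X] → ℚ̄(X)` -/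
def s52tf_iotaPoly : Polynomial ℚ →+* RatFunc s52_Qb :=
  (algebraMap (Polynomial s52_Qb) (RatFunc s52_Qb)).comp
    (Polynomial.mapRingHom (algebraMap ℚ s52_Qb))

theorem s52tf_iotaPoly_injective : Function.Injective s52tf_iotaPoly := by
  unfold s52tf_iotaPoly
  rw [RingHom.coe_comp]
  exact (RatFunc.algebraMap_injective s52_Qb).comp
    (Polynomial.map_injective _ (algebraMap ℚ s52_Qb).injective)

/-- `ι : ℚ(X) → ℚ̄(X)`, coefficientwise -/
def s52tf_iota : RatFunc ℚ →+* RatFunc s52_Qb :=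
  RatFunc.liftRingHom s52tf_iotaPoly
    (nonZeroDivisors_le_comap_nonZeroDivisors_of_injective _ s52tf_iotaPoly_injective)

theorem s52tf_iota_algebraMap (p : Polynomial ℚ) :
    s52tf_iota (algebraMap (Polynomial ℚ) (RatFunc ℚ) p) =
      algebraMap (Polynomial s52_Qb) (RatFunc s52_Qb) (p.map (algebraMap ℚ s52_Qb)) := by
  unfold s52tf_iota
  rw [RatFunc.liftRingHom_algebraMap]
  rfl

/-- the chosen embedding `ℚ̄ → Ω` -/
def s52tf_e : s52_Qb →ₐ[ℚ] s52_Om :=
  haveI : Algebra.IsAlgebraic ℚ s52_Qb := AlgebraicClosure.isAlgebraic ℚ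
  IsAlgClosed.lift

/-- `s ∈ Ω` -/
def s52tf_s : s52_Om := algebraMap (RatFunc ℚ) s52_Om RatFunc.X

theorem s52tf_algebraMap_rat (q : ℚ) :
    algebraMap ℚ s52_Om q = algebraMap (RatFunc ℚ) s52_Om (algebraMap ℚ (RatFunc ℚ) q) := by
  have h1 : algebraMap ℚ s52_Om q = (q : s52_Om) := eq_ratCast _ q
  have h2 : algebraMap ℚ (RatFunc ℚ) q = (q : RatFunc ℚ) := eq_ratCast _ q
  rw [h1, h2, map_ratCast]

theorem s52tf_X_transcendental : Transcendental ℚ (RatFunc.X : RatFunc ℚ) := by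
  have h := RatFunc.transcendental_X (K := ℚ)
  convert h using 1
  exact Subsingleton.elim _ _

theorem s52tf_s_transcendental : Transcendental ℚ s52tf_s := by
  haveI := IsScalarTower.of_algebraMap_eq (R := ℚ) (S := RatFunc ℚ) (A := s52_Om)
    s52tf_algebraMap_rat
  exact (transcendental_algebraMap_iff (algebraMap (RatFunc ℚ) s52_Om).injective).mpr
    s52tf_X_transcendental

/-- `ℚ̄[X] → Ω`, `c ↦ e c`, `X ↦ s` -/
def s52tf_thetaPoly : Polynomial s52_Qb →+* s52_Om :=
  Polynomial.eval₂RingHom (s52tf_e : s52_Qb →+* s52_Om) s52tf_s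

theorem s52tf_thetaPoly_injective : Function.Injective s52tf_thetaPoly := by
  letI : Algebra s52_Qb s52_Om := (s52tf_e : s52_Qb →+* s52_Om).toAlgebra
  haveI : IsScalarTower ℚ s52_Qb s52_Om :=
    IsScalarTower.of_algebraMap_eq fun q => (s52tf_e.commutes q).symm
  haveI : Algebra.IsAlgebraic ℚ s52_Qb := AlgebraicClosure.isAlgebraic ℚ
  have htr : Transcendental s52_Qb s52tf_s := fun h =>
    s52tf_s_transcendental (h.restrictScalars (R := ℚ))
  have := transcendental_iff_injective.mp htr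
  intro p q hpq
  apply this
  exact hpq

/-- `θ : ℚ̄(X) → Ω` -/
def s52tf_theta : RatFunc s52_Qb →+* s52_Om :=
  RatFunc.liftRingHom s52tf_thetaPoly
    (nonZeroDivisors_le_comap_nonZeroDivisors_of_injective _ s52tf_thetaPoly_injective)

theorem s52tf_theta_algebraMap (p : Polynomial s52_Qb) :
    s52tf_theta (algebraMap (Polynomial s52_Qb) (RatFunc s52_Qb) p) = s52tf_thetaPoly p := by
  unfold s52tf_theta
  rw [RatFunc.liftRingHom_algebraMap]

theorem s52tf_theta_injective : Function.Injective s52tf_theta :=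
  s52tf_theta.injective

theorem s52tf_thetaPoly_C (c : s52_Qb) : s52tf_thetaPoly (C c) = s52tf_e c := by
  simp [s52tf_thetaPoly]

theorem s52tf_thetaPoly_X : s52tf_thetaPoly X = s52tf_s := by
  simp [s52tf_thetaPoly]

theorem s52tf_theta_C (c : s52_Qb) : s52tf_theta (RatFunc.C c) = s52tf_e c := by
  rw [← RatFunc.algebraMap_C, s52tf_theta_algebraMap, s52tf_thetaPoly_C]

theorem s52tf_theta_X : s52tf_theta RatFunc.X = s52tf_s := by
  rw [← RatFunc.algebraMap_X, s52tf_theta_algebraMap, s52tf_thetaPoly_X]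

theorem s52tf_theta_iota_poly (p : Polynomial ℚ) :
    s52tf_theta (s52tf_iota (algebraMap (Polynomial ℚ) (RatFunc ℚ) p)) =
      algebraMap (RatFunc ℚ) s52_Om (algebraMap (Polynomial ℚ) (RatFunc ℚ) p) := by
  rw [s52tf_iota_algebraMap, s52tf_theta_algebraMap]
  have h : (s52tf_thetaPoly.comp (Polynomial.mapRingHom (algebraMap ℚ s52_Qb))) =
      (algebraMap (RatFunc ℚ) s52_Om).comp (algebraMap (Polynomial ℚ) (RatFunc ℚ)) := by
    apply Polynomial.ringHom_ext
    · intro q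
      simp only [RingHom.comp_apply, Polynomial.coe_mapRingHom, Polynomial.map_C,
        s52tf_thetaPoly_C, RatFunc.algebraMap_C]
      rw [eq_ratCast (algebraMap ℚ s52_Qb) q, map_ratCast, eq_ratCast (RatFunc.C (K := ℚ)) q,
        map_ratCast]
    · simp only [RingHom.comp_apply, Polynomial.coe_mapRingHom, Polynomial.map_X,
        s52tf_thetaPoly_X, RatFunc.algebraMap_X]
      rfl
  exact RingHom.congr_fun h p

/-- `θ ∘ ι = algebraMap (RatFunc ℚ) Ω` -/
theorem s52tf_theta_iota (r : RatFunc ℚ) :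
    s52tf_theta (s52tf_iota r) = algebraMap (RatFunc ℚ) s52_Om r := by
  rw [← RatFunc.num_div_denom r, map_div₀, map_div₀, map_div₀, s52tf_theta_iota_poly,
    s52tf_theta_iota_poly]

/-- every element of `Ω` algebraic over `ℚ` is in the image of `e` -/
theorem s52tf_mem_range_e (z : s52_Om) (hz : z ∈ algebraicClosure ℚ s52_Om) :
    ∃ c : s52_Qb, s52tf_e c = z := by
  haveI : Algebra.IsAlgebraic ℚ s52_Qb := AlgebraicClosure.isAlgebraic ℚ
  have he : ∀ c, s52tf_e c ∈ (algebraicClosure ℚ s52_Om).toSubalgebra := fun c =>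
    (map_mem_algebraicClosure_iff s52tf_e).mpr
      (mem_algebraicClosure_iff.mpr (Algebra.IsAlgebraic.isAlgebraic c))
  let e' : s52_Qb →ₐ[ℚ] ↥(algebraicClosure ℚ s52_Om) :=
    s52tf_e.codRestrict (algebraicClosure ℚ s52_Om).toSubalgebra he
  haveI : Algebra.IsAlgebraic ℚ ↥(algebraicClosure ℚ s52_Om) := ⟨fun x => by
    have hx : IsAlgebraic ℚ (x : s52_Om) := mem_algebraicClosure_iff.mp x.2
    exact (isAlgebraic_algHom_iff
      ((algebraicClosure ℚ s52_Om).val : ↥(algebraicClosure ℚ s52_Om) →+* s52_Om).toRatAlgHom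
      Subtype.val_injective).mp hx⟩
  let g : ↥(algebraicClosure ℚ s52_Om) →ₐ[ℚ] s52_Qb := IsAlgClosed.lift
  obtain ⟨c, hc⟩ := (Algebra.IsAlgebraic.algHom_bijective₂ e' g).1.2 ⟨z, hz⟩
  exact ⟨c, congrArg Subtype.val hc⟩

theorem s52tf_e_mem (c : s52_Qb) : s52tf_e c ∈ algebraicClosure ℚ s52_Om := by
  haveI : Algebra.IsAlgebraic ℚ s52_Qb := AlgebraicClosure.isAlgebraic ℚ
  exact (map_mem_algebraicClosure_iff s52tf_e).mpr
    (mem_algebraicClosure_iff.mpr (Algebra.IsAlgebraic.isAlgebraic c))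

theorem s52tf_s_mem_KbarS : s52tf_s ∈ s52_KbarS :=
  Subfield.subset_closure (Or.inr rfl)

theorem s52tf_e_mem_KbarS (c : s52_Qb) : s52tf_e c ∈ s52_KbarS :=
  Subfield.subset_closure (Or.inl (s52tf_e_mem c))

theorem s52tf_thetaPoly_mem (p : Polynomial s52_Qb) : s52tf_thetaPoly p ∈ s52_KbarS := by
  induction p using Polynomial.induction_on with
  | C c => rw [s52tf_thetaPoly_C]; exact s52tf_e_mem_KbarS c
  | add p q hp hq => rw [map_add]; exact add_mem hp hq
  | monomial n c h =>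
    rw [pow_succ, ← mul_assoc, map_mul, s52tf_thetaPoly_X]
    exact mul_mem h s52tf_s_mem_KbarS

theorem s52tf_theta_mem (r : RatFunc s52_Qb) : s52tf_theta r ∈ s52_KbarS := by
  rw [← RatFunc.num_div_denom r, map_div₀, s52tf_theta_algebraMap, s52tf_theta_algebraMap]
  exact div_mem (s52tf_thetaPoly_mem _) (s52tf_thetaPoly_mem _)

/-- `range θ = ℚ̄(s)` -/
theorem s52tf_mem_KbarS_iff (z : s52_Om) : z ∈ s52_KbarS ↔ ∃ r : RatFunc s52_Qb, s52tf_theta r = z := by
  constructor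
  · intro hz
    have hle : s52_KbarS ≤ s52tf_theta.fieldRange := by
      unfold s52_KbarS
      rw [Subfield.closure_le]
      rintro y (hy | hy)
      · obtain ⟨c, rfl⟩ := s52tf_mem_range_e y hy
        exact ⟨RatFunc.C c, s52tf_theta_C c⟩
      · rw [Set.mem_singleton_iff] at hy
        exact ⟨RatFunc.X, by rw [hy, s52tf_theta_X]; rfl⟩
    exact hle hz
  · rintro ⟨r, rfl⟩
    exact s52tf_theta_mem r

end

end Fermat.Agent.S52
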